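import Fermat.Agent.AKS.Soundness

/-!
# The test and the size of its modulus

Some `r ≤ k ^ 5 + 6`, `k = ⌈log₂ n⌉`, has `ord_r n > k ^ 2`, as `lcm (1, …, B) ≥ 2 ^ B / (B + 1)`.
-/

set_option autoImplicit false

noncomputable section

namespace FA.AKS

open Finset

theorem exists_modulus {n : ℕ} (hn : 2 ≤ n) :
    ∃ r, r ≤ Nat.clog 2 n ^ 5 + 6 ∧ Nat.clog 2 n ^ 2 < orderOf ((n : ℕ) : ZMod r) := by
  obtain ⟨k, hk⟩ : ∃ k, k = Nat.clog 2 n := ⟨_, rfl⟩
  rw [← hk]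
  have hk1 : 1 ≤ k := hk ▸ Nat.clog_pos one_lt_two hn
  have hnk : n ≤ 2 ^ k := hk ▸ Nat.le_pow_clog one_lt_two n
  obtain ⟨B, hB⟩ : ∃ B, B = k ^ 5 + 6 := ⟨_, rfl⟩
  obtain ⟨a, ha⟩ : ∃ a, a = Nat.log 2 B := ⟨_, rfl⟩
  obtain ⟨Q, hQ⟩ : ∃ Q, Q = ∏ i ∈ Icc 1 (k ^ 2), (n ^ i - 1) := ⟨_, rfl⟩
  rw [← hB]
  by_cases hall : Nat.lcmUpto B ∣ n ^ a * Q
  · exfalso
    have hpos : ∀ i ∈ Icc 1 (k ^ 2), 0 < n ^ i - 1 := fun i hi => by
      have := Nat.one_lt_pow (n := i) (by rw [mem_Icc] at hi; omega) hn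
      omega
    have hN0 : 0 < n ^ a * Q :=
      Nat.mul_pos (Nat.pow_pos (by omega)) (hQ ▸ Finset.prod_pos hpos)
    have hlt : n ^ a * Q < 2 ^ (k * (a + ∑ i ∈ Icc 1 (k ^ 2), i)) := by
      refine lt_of_lt_of_le ?_ ((Nat.pow_le_pow_left hnk _).trans (le_of_eq (by rw [← pow_mul])))
      rw [pow_add, ← prod_pow_eq_pow_sum, hQ]
      refine Nat.mul_lt_mul_of_pos_left (Finset.prod_lt_prod hpos (fun i _ => Nat.sub_le _ _) ?_)
        (Nat.pow_pos (by omega))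
      exact ⟨1, mem_Icc.2 ⟨le_rfl, Nat.one_le_pow _ _ (by omega)⟩, by
        rw [pow_one]; omega⟩
    have hBa : B + 1 ≤ 2 ^ (a + 1) := ha ▸ Nat.lt_pow_succ_log_self one_lt_two B
    have h1 : 2 ^ B < 2 ^ (a + 1 + k * (a + ∑ i ∈ Icc 1 (k ^ 2), i)) := by
      refine (Chebyshev.two_pow_le_mul_lcmUpto B).trans_lt ?_
      rw [pow_add]
      exact lt_of_le_of_lt (Nat.mul_le_mul hBa (Nat.le_of_dvd hN0 hall))
        (Nat.mul_lt_mul_of_pos_left hlt (by positivity))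
    have h2 := (Nat.pow_lt_pow_iff_right one_lt_two).1 h1
    have hsum : 2 * ∑ i ∈ Icc 1 (k ^ 2), i = k ^ 2 * (k ^ 2 + 1) := by
      have e : ∀ m : ℕ, 2 * ∑ i ∈ Icc 1 m, i = m * (m + 1) := fun m => by
        induction m with
        | zero => simp
        | succ m ih => rw [sum_Icc_succ_top (by omega), mul_add, ih]; ring
      exact e _
    have key : 2 * (k + 1) * a + k ^ 3 ≤ k ^ 5 + 10 := by
      rcases (show k = 1 ∨ k = 2 ∨ 3 ≤ k by omega) with h | h | h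
      · subst h
        have : a = 2 := by
          rw [ha, hB, Nat.log_eq_iff (by norm_num)]
          norm_num
        subst this
        norm_num
      · subst h
        have : a = 5 := by
          rw [ha, hB, Nat.log_eq_iff (by norm_num)]
          norm_num
        subst this
        norm_num
      · have ha5 : a ≤ 5 * k := by
          rw [ha]
          refine (Nat.log_mono_right ?_).trans (Nat.log_pow one_lt_two _).le
          rw [hB, mul_comm, pow_mul]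
          refine le_trans ?_ (Nat.pow_le_pow_left (Nat.lt_two_pow_self : k < 2 ^ k) 5)
          ring_nf
          nlinarith
        have hk2 : 9 ≤ k ^ 2 := Nat.pow_le_pow_left h 2
        have hk3 : 9 * k ≤ k ^ 3 := by nlinarith
        nlinarith
    nlinarith
  · obtain ⟨r, hr1, hrB, hr⟩ : ∃ r, 1 ≤ r ∧ r ≤ B ∧ ¬ r ∣ n ^ a * Q := by
      by_contra! h
      refine hall (Finset.lcm_dvd fun r hr => ?_)
      rw [mem_Icc] at hr
      exact h r hr.1 hr.2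
    obtain ⟨g, hg⟩ : ∃ g, g = Nat.gcd r (n ^ a) := ⟨_, rfl⟩
    have hgr : g ∣ r := hg ▸ Nat.gcd_dvd_left _ _
    obtain ⟨v, rfl⟩ := hgr
    have hv0 : v ≠ 0 := by rintro rfl; simp at hr1
    have hg0 : g ≠ 0 := by rintro rfl; simp at hr1
    refine ⟨v, (Nat.le_mul_of_pos_left v (by omega)).trans hrB, ?_⟩
    have hcop : Nat.Coprime n v := by
      by_contra hc
      obtain ⟨q, hq, hqn, hqv⟩ := Nat.Prime.not_coprime_iff_dvd.1 hc
      obtain ⟨c, hcdef⟩ : ∃ c, c = (g * v).factorization q := ⟨_, rfl⟩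
      have hca : c ≤ a := by
        rw [ha]
        refine Nat.le_log_of_pow_le one_lt_two ((Nat.pow_le_pow_left hq.two_le c).trans ?_)
        exact (Nat.le_of_dvd (by omega) (hcdef ▸ Nat.ordProj_dvd _ _)).trans hrB
      have h1 : q ^ c ∣ g := hg ▸ Nat.dvd_gcd (hcdef ▸ Nat.ordProj_dvd _ _)
        ((pow_dvd_pow q hca).trans (pow_dvd_pow_of_dvd hqn a))
      exact Nat.pow_succ_factorization_not_dvd (Nat.mul_ne_zero hg0 hv0) hq
        (hcdef ▸ (pow_succ q c ▸ Nat.mul_dvd_mul h1 hqv))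
    have : NeZero v := ⟨hv0⟩
    have hunit : IsUnit ((n : ℕ) : ZMod v) := (ZMod.isUnit_iff_coprime n v).2 hcop
    have hpos : 0 < orderOf ((n : ℕ) : ZMod v) := by
      rw [← hunit.unit_spec, orderOf_units]
      exact orderOf_pos _
    by_contra hle
    refine hr (Nat.mul_dvd_mul (hg ▸ Nat.gcd_dvd_right _ _) (hQ ▸ ?_))
    refine dvd_trans ?_ (dvd_prod_of_mem (fun i => n ^ i - 1)
      (mem_Icc.2 ⟨hpos, not_lt.1 hle⟩))
    rw [← Nat.modEq_iff_dvd' (Nat.one_le_pow _ _ (by omega)), ← ZMod.natCast_eq_natCast_iff,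
      Nat.cast_one, Nat.cast_pow, pow_orderOf_eq_one]

theorem prime_iff {n r : ℕ} (hn : 2 ≤ n)
    (hord : Nat.clog 2 n ^ 2 < orderOf ((n : ℕ) : ZMod r)) :
    n.Prime ↔ (¬ ∃ m j, 2 ≤ j ∧ m ^ j = n) ∧ (∀ d ≤ r, d ∣ n → d = 1 ∨ d = n) ∧
      ∀ a ≤ Nat.sqrt (r.totient * Nat.clog 2 n ^ 2), Congr n r a := by
  constructor
  · intro hp
    exact ⟨fun ⟨m, j, hj, h⟩ => Nat.Prime.not_prime_pow hj (h ▸ hp),
      fun d _ hd => hp.eq_one_or_self_of_dvd d hd, fun a _ => congr_of_prime hp r a⟩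
  · rintro ⟨hpow, hdiv, hcong⟩
    by_contra hnp
    obtain ⟨p, hp, hpn⟩ := Nat.exists_prime_and_dvd (show n ≠ 1 by omega)
    have hrp : r < p := by
      by_contra h
      rcases hdiv p (not_lt.1 h) hpn with h1 | h1
      · exact hp.ne_one h1
      · exact hnp (h1 ▸ hp)
    have := Fact.mk hp
    obtain ⟨i, hi⟩ := eq_pow_of_congr hn hpn hrp hord hcong
    rcases (show i = 0 ∨ i = 1 ∨ 2 ≤ i by omega) with h | h | h
    · rw [h, pow_zero] at hi
      omega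
    · rw [h, pow_one] at hi
      exact hnp (hi ▸ hp)
    · exact hpow ⟨p, i, h, hi.symm⟩

end FA.AKS
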