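import Mathlib.RingTheory.Polynomial.Cyclotomic.Roots
import Mathlib.FieldTheory.IsAlgClosed.AlgebraicClosure
import Mathlib.GroupTheory.OrderOfElement
import Mathlib.Algebra.CharP.Lemmas
import Mathlib.Algebra.CharP.Reduced
import Mathlib.NumberTheory.Chebyshev
import Mathlib.FieldTheory.Finite.Basic
import Mathlib.Tactic

/-!
# The criterion of Agrawal, Kayal and Saxena

Both `p` and `n / p` are introspective for the products of the `X + a`; the subgroup they generate
modulo `r` then gives two contradictory bounds unless `n` is a power of `p`.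
-/

set_option autoImplicit false

noncomputable section

namespace FA.AKS

open Polynomial Finset

/-- `(X + a) ^ n ≡ X ^ n + a` modulo `(n, X ^ r - 1)`. -/
def Congr (n r a : ℕ) : Prop :=
  (X ^ r - 1 : (ZMod n)[X]) ∣ (X + C (a : ZMod n)) ^ n - (X ^ n + C (a : ZMod n))

theorem congr_of_prime {n : ℕ} (hn : n.Prime) (r a : ℕ) : Congr n r a := by
  have := Fact.mk hn
  rw [Congr, add_pow_char, ← C_pow, ZMod.pow_card, sub_self]
  exact dvd_zero _

section introspective

variable {p : ℕ} [Fact p.Prime] {r : ℕ}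

local notation "K" => AlgebraicClosure (ZMod p)

/-- `m` is introspective for `f` on the `r`-th roots of unity. -/
def Intro (r m : ℕ) (f : (ZMod p)[X]) : Prop :=
  ∀ x : AlgebraicClosure (ZMod p), x ^ r = 1 → aeval x f ^ m = aeval (x ^ m) f

theorem intro_mul {m m' : ℕ} {f : (ZMod p)[X]} (h : Intro r m f) (h' : Intro r m' f) :
    Intro r (m * m') f := fun x hx => by
  rw [pow_mul, h x hx, h' _ (by rw [← pow_mul, mul_comm, pow_mul, hx, one_pow]), ← pow_mul]

theorem intro_one (f : (ZMod p)[X]) : Intro r 1 f := fun x _ => by simp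

theorem intro_pow {m : ℕ} {f : (ZMod p)[X]} (h : Intro r m f) : ∀ i, Intro r (m ^ i) f
  | 0 => by simpa using intro_one f
  | i + 1 => by rw [pow_succ]; exact intro_mul (intro_pow h i) h

theorem intro_prime (f : (ZMod p)[X]) : Intro r p f := fun x _ => by
  rw [← map_pow, ← ZMod.expand_card, expand_aeval]

theorem intro_div {k : ℕ} {f : (ZMod p)[X]} (hk : Intro r (k * p) f) :
    Intro r k f := fun x hx => by
  refine frobenius_inj K p ?_
  simp only [frobenius_def]
  have h : (x ^ k) ^ r = 1 := by rw [← pow_mul, mul_comm, pow_mul, hx, one_pow]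
  rw [← pow_mul, hk x hx, intro_prime f _ h, ← pow_mul]

theorem intro_prod {m : ℕ} {ι : Type*} (s : Finset ι) (f : ι → (ZMod p)[X])
    (h : ∀ i ∈ s, Intro r m (f i)) : Intro r m (∏ i ∈ s, f i) := fun x hx => by
  rw [map_prod, map_prod, ← prod_pow]
  exact prod_congr rfl fun i hi => h i hi x hx

theorem intro_of_congr {n : ℕ} (hpn : p ∣ n) {a : ℕ} (h : Congr n r a) :
    Intro r n (X + C (a : ZMod p)) := fun x hx => by
  obtain ⟨g, hg⟩ := h
  have h1 := congrArg (fun f : (ZMod n)[X] => aeval x (f.map (ZMod.castHom hpn (ZMod p)))) hg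
  simp only [Polynomial.map_sub, Polynomial.map_pow, Polynomial.map_add, Polynomial.map_mul,
    map_X, Polynomial.map_one, map_natCast, map_sub, map_pow, map_add, map_mul, aeval_X,
    map_one, hx, sub_self, zero_mul, sub_eq_zero] at h1
  simpa [aeval_C] using h1

/-- **The criterion.** -/
theorem eq_pow_of_congr {n : ℕ} (hn : 2 ≤ n) (hpn : p ∣ n) (hrp : r < p)
    (hord : Nat.clog 2 n ^ 2 < orderOf ((n : ℕ) : ZMod r))
    (hcong : ∀ a ≤ Nat.sqrt (r.totient * Nat.clog 2 n ^ 2), Congr n r a) :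
    ∃ i, n = p ^ i := by
  classical
  by_contra hne
  push Not at hne
  have hp := (Fact.out : p.Prime)
  obtain ⟨k, rfl⟩ := hpn
  obtain ⟨L, hL⟩ : ∃ L, L = Nat.clog 2 (p * k) := ⟨_, rfl⟩
  rw [← hL] at hord hcong
  have hL1 : 1 ≤ L := hL ▸ Nat.clog_pos one_lt_two hn
  -- the modulus
  have hr0 : r ≠ 0 := by
    rintro rfl
    have h : orderOf ((p * k : ℕ) : ZMod 0) = 0 := by
      rw [orderOf_eq_zero_iff']
      intro j hj h
      have h' : (((p * k) ^ j : ℕ) : ℤ) = ((1 : ℕ) : ℤ) := by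
        push_cast
        exact_mod_cast h
      exact absurd (Nat.cast_inj.1 h') (Nat.one_lt_pow hj.ne' hn).ne'
    omega
  have : NeZero r := ⟨hr0⟩
  have hnu : IsUnit (((p * k : ℕ) : ℕ) : ZMod r) :=
    (IsUnit.of_pow_eq_one (pow_orderOf_eq_one _) (by omega))
  rw [ZMod.isUnit_iff_coprime] at hnu
  have hpr : Nat.Coprime p r := Nat.Coprime.coprime_dvd_left (dvd_mul_right p k) hnu
  have hkr : Nat.Coprime k r := Nat.Coprime.coprime_dvd_left (dvd_mul_left k p) hnu
  -- the residues of `k ^ i p ^ j`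
  obtain ⟨T, hT⟩ : ∃ T : Finset (ZMod r), T = (range r.totient ×ˢ range r.totient).image
      fun x => ((k : ZMod r) ^ x.1 * (p : ZMod r) ^ x.2) := ⟨_, rfl⟩
  have hper : ∀ {a : ℕ}, Nat.Coprime a r → ∀ i,
      (a : ZMod r) ^ i = (a : ZMod r) ^ (i % r.totient) := fun {a} ha i => by
    refine pow_eq_pow_mod i ?_
    rw [← Nat.cast_pow, ← Nat.cast_one, ZMod.natCast_eq_natCast_iff]
    exact Nat.ModEq.pow_totient ha
  have htot : 0 < r.totient := Nat.totient_pos.2 (Nat.pos_of_ne_zero hr0)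
  have hmemT : ∀ i j, (k : ZMod r) ^ i * (p : ZMod r) ^ j ∈ T := fun i j => by
    rw [hper hkr i, hper hpr j, hT]
    exact mem_image.2 ⟨(i % r.totient, j % r.totient), mem_product.2
      ⟨mem_range.2 (Nat.mod_lt _ htot), mem_range.2 (Nat.mod_lt _ htot)⟩, rfl⟩
  obtain ⟨t, ht⟩ : ∃ t, t = T.card := ⟨_, rfl⟩
  have hot : orderOf ((p * k : ℕ) : ZMod r) ≤ t := by
    rw [ht, ← card_range (orderOf ((p * k : ℕ) : ZMod r))]
    refine card_le_card_of_injOn (fun i => ((p * k : ℕ) : ZMod r) ^ i) (fun i _ => ?_) ?_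
    · simp only [mem_coe, Nat.cast_mul, mul_pow]
      rw [mul_comm]
      exact hmemT i i
    · intro i hi j hj h
      rw [mem_coe, mem_range] at hi hj
      exact pow_injOn_Iio_orderOf hi hj h
  have htphi : t ≤ r.totient := by
    rw [ht, ← ZMod.card_units_eq_totient r]
    refine (card_le_card fun x hx => ?_).trans (card_image_le (s := univ)
      (f := fun u : (ZMod r)ˣ => (u : ZMod r)))
    rw [hT, mem_image] at hx
    obtain ⟨⟨i, j⟩, -, rfl⟩ := hx
    exact mem_image.2 ⟨(ZMod.unitOfCoprime k hkr) ^ i * (ZMod.unitOfCoprime p hpr) ^ j,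
      mem_univ _, by simp⟩
  obtain ⟨v, hv⟩ : ∃ v, v = Nat.sqrt (t * L ^ 2) := ⟨_, rfl⟩
  have hvt : v < t := by
    rw [hv, Nat.sqrt_lt']
    nlinarith
  have hvl : v ≤ Nat.sqrt (r.totient * L ^ 2) :=
    hv ▸ Nat.sqrt_le_sqrt (Nat.mul_le_mul_right _ htphi)
  have hrr : r.totient < p := lt_of_le_of_lt (Nat.totient_le r) hrp
  -- the root of unity
  have hrK : ((r : ℕ) : AlgebraicClosure (ZMod p)) ≠ 0 := by
    rw [Ne, CharP.cast_eq_zero_iff (AlgebraicClosure (ZMod p)) p]
    exact fun h => absurd (Nat.le_of_dvd (Nat.pos_of_ne_zero hr0) h) (by omega)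
  have : NeZero ((r : ℕ) : AlgebraicClosure (ZMod p)) := ⟨hrK⟩
  obtain ⟨ζ, hζ⟩ := IsAlgClosed.exists_root (cyclotomic r (AlgebraicClosure (ZMod p)))
    (degree_cyclotomic_pos r _ (Nat.pos_of_ne_zero hr0)).ne'
  rw [isRoot_cyclotomic_iff] at hζ
  have hζr : ζ ^ r = 1 := hζ.pow_eq_one
  -- the family
  obtain ⟨S, hS⟩ : ∃ S : Finset (Finset ℕ), S = (range (v + 1)).powerset.erase (range (v + 1)) :=
    ⟨_, rfl⟩
  obtain ⟨F, hF⟩ : ∃ F : Finset ℕ → (ZMod p)[X], F = fun A : Finset ℕ =>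
      ∏ a ∈ A, ((X : (ZMod p)[X]) + C ((a : ℕ) : ZMod p)) :=
    ⟨_, rfl⟩
  have hsub : ∀ A ∈ S, A ⊆ range (v + 1) ∧ A.card ≤ v := fun A hA => by
    rw [hS, mem_erase, mem_powerset] at hA
    refine ⟨hA.2, ?_⟩
    have := card_lt_card (Finset.ssubset_iff_subset_ne.2 ⟨hA.2, hA.1⟩)
    rw [card_range] at this
    omega
  have hintro : ∀ A ∈ S, ∀ i j, Intro r (k ^ i * p ^ j) (F A) := fun A hA i j => by
    refine intro_mul (intro_pow ?_ i) (intro_pow (intro_prime _) j)
    rw [hF]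
    refine intro_prod _ _ fun a ha => intro_div ?_
    rw [mul_comm]
    refine intro_of_congr (dvd_mul_right p k) (hcong a ?_)
    have := mem_range.1 ((hsub A hA).1 ha)
    omega
  have hdeg : ∀ A : Finset ℕ, (F A).natDegree = A.card := fun A => by
    rw [hF, natDegree_prod_of_monic _ _ fun a _ => monic_X_add_C _,
      sum_congr rfl fun a _ => natDegree_X_add_C _, sum_const, smul_eq_mul, mul_one]
  -- the map to the field is injective
  have hinj : Set.InjOn (fun A => aeval ζ (F A)) (S : Set (Finset ℕ)) := by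
    intro A hA B hB h
    simp only at h
    have hFAB : F A = F B := by
      by_contra hAB
      obtain ⟨R, hR⟩ : ∃ R : Finset (AlgebraicClosure (ZMod p)),
          R = T.image fun u : ZMod r => ζ ^ u.val := ⟨_, rfl⟩
      have hRc : R.card = t := by
        rw [hR, card_image_of_injective _ fun u u' e => ZMod.val_injective r
          (hζ.pow_inj (ZMod.val_lt u) (ZMod.val_lt u') e), ht]
      have hroot : ∀ y ∈ R, y ∈ ((F A - F B).map
          (algebraMap (ZMod p) (AlgebraicClosure (ZMod p)))).roots := by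
        intro y hy
        rw [hR, mem_image] at hy
        obtain ⟨u, hu, rfl⟩ := hy
        rw [hT, mem_image] at hu
        obtain ⟨⟨i, j⟩, -, rfl⟩ := hu
        rw [mem_roots ((Polynomial.map_ne_zero_iff (RingHom.injective _)).2 (sub_ne_zero.2 hAB)),
          IsRoot, eval_map_algebraMap, map_sub, sub_eq_zero]
        have e : ζ ^ ((k : ZMod r) ^ i * (p : ZMod r) ^ j).val = ζ ^ (k ^ i * p ^ j) := by
          rw [← Nat.cast_pow, ← Nat.cast_pow, ← Nat.cast_mul, ZMod.val_natCast]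
          exact (pow_eq_pow_mod _ hζr).symm
        rw [e, ← hintro A hA i j ζ hζr, ← hintro B hB i j ζ hζr, h]
      have h1 := card_le_degree_of_subset_roots (p := (F A - F B).map
        (algebraMap (ZMod p) (AlgebraicClosure (ZMod p)))) hroot
      rw [hRc, natDegree_map] at h1
      have h2 := natDegree_sub_le (F A) (F B)
      rw [hdeg, hdeg] at h2
      have := (hsub A hA).2
      have := (hsub B hB).2
      omega
    have key : ∀ {A : Finset ℕ}, A ∈ S → ∀ {a : ℕ}, a ≤ v →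
        ((F A).IsRoot (-(a : ZMod p)) ↔ a ∈ A) := fun {A} hA {a} ha => by
      rw [hF, IsRoot, eval_prod, prod_eq_zero_iff]
      constructor
      · rintro ⟨b, hb, hb0⟩
        rw [eval_add, eval_X, eval_C, neg_add_eq_sub, sub_eq_zero,
          ZMod.natCast_eq_natCast_iff'] at hb0
        have := mem_range.1 ((hsub A hA).1 hb)
        rw [Nat.mod_eq_of_lt (by omega), Nat.mod_eq_of_lt (by omega)] at hb0
        exact hb0 ▸ hb
      · exact fun h => ⟨a, h, by simp⟩
    ext a
    constructor <;> intro ha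
    · have hav : a ≤ v := Nat.lt_succ_iff.1 (mem_range.1 ((hsub A hA).1 ha))
      exact (key hB hav).1 (hFAB ▸ (key hA hav).2 ha)
    · have hav : a ≤ v := Nat.lt_succ_iff.1 (mem_range.1 ((hsub B hB).1 ha))
      exact (key hA hav).1 (hFAB ▸ (key hB hav).2 ha)
  -- two equal exponents
  obtain ⟨s, hs⟩ : ∃ s, s = Nat.sqrt t := ⟨_, rfl⟩
  obtain ⟨P, hP⟩ : ∃ P, P = range (s + 1) ×ˢ range (s + 1) := ⟨_, rfl⟩
  have hPc : t < P.card := by
    rw [hP, card_product, card_range, hs]
    exact Nat.lt_succ_sqrt t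
  obtain ⟨x, hx, y, hy, hxy, he⟩ := exists_ne_map_eq_of_card_lt_of_maps_to (t := T)
    (f := fun x : ℕ × ℕ => (k : ZMod r) ^ x.1 * (p : ZMod r) ^ x.2) (ht ▸ hPc)
    fun x _ => hmemT x.1 x.2
  have hk0 : k ≠ 0 := fun h => by simp [h] at hn
  have hne' : k ^ x.1 * p ^ x.2 ≠ k ^ y.1 * p ^ y.2 := by
    intro h
    obtain ⟨q, hq, hqk, hqp⟩ : ∃ q : ℕ, q.Prime ∧ q ∣ k ∧ q ≠ p := by
      by_contra! h'
      refine hne (k.primeFactorsList.length + 1) ?_
      rw [pow_succ', ← Nat.eq_prime_pow_of_unique_prime_dvd hk0 fun {d} hd hdk => h' d hd hdk]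
    have h1 := congrArg (fun m => m.factorization q) h
    simp only [Nat.factorization_mul (pow_ne_zero _ hk0) (pow_ne_zero _ hp.ne_zero),
      Nat.factorization_pow, Finsupp.coe_add, Pi.add_apply, Finsupp.coe_smul, Pi.smul_apply,
      smul_eq_mul, hp.factorization, Finsupp.single_apply, if_neg hqp.symm, mul_zero,
      add_zero] at h1
    have hkq : 0 < k.factorization q := hq.factorization_pos_of_dvd hk0 hqk
    have h2 : x.1 = y.1 := Nat.eq_of_mul_eq_mul_right hkq h1
    rw [h2] at h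
    have h3 : x.2 = y.2 :=
      Nat.pow_right_injective hp.two_le
        (Nat.eq_of_mul_eq_mul_left (Nat.pow_pos (Nat.pos_of_ne_zero hk0)) h)
    exact hxy (Prod.ext h2 h3)
  obtain ⟨M, m, hMm, hmM, hMle, hpow⟩ : ∃ M m : ℕ, M ≠ m ∧ m ≤ M ∧ M ≤ (p * k) ^ s ∧
      ∀ A ∈ S, aeval ζ (F A) ^ M = aeval ζ (F A) ^ m := by
    have hle : ∀ z ∈ P, k ^ z.1 * p ^ z.2 ≤ (p * k) ^ s := fun z hz => by
      rw [hP, mem_product, mem_range, mem_range] at hz
      rw [mul_pow, mul_comm (p ^ s)]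
      exact Nat.mul_le_mul (Nat.pow_le_pow_right (Nat.pos_of_ne_zero hk0) (by omega))
        (Nat.pow_le_pow_right hp.pos (by omega))
    have heq : ∀ A ∈ S, aeval ζ (F A) ^ (k ^ x.1 * p ^ x.2) =
        aeval ζ (F A) ^ (k ^ y.1 * p ^ y.2) := fun A hA => by
      rw [hintro A hA _ _ ζ hζr, hintro A hA _ _ ζ hζr]
      congr 1
      rw [pow_eq_pow_mod _ hζr, pow_eq_pow_mod (k ^ y.1 * p ^ y.2) hζr]
      congr 1
      rw [← Nat.cast_pow, ← Nat.cast_pow, ← Nat.cast_mul, ← Nat.cast_pow, ← Nat.cast_pow,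
        ← Nat.cast_mul, ZMod.natCast_eq_natCast_iff'] at he
      rw [he]
    rcases le_total (k ^ x.1 * p ^ x.2) (k ^ y.1 * p ^ y.2) with h | h
    · exact ⟨_, _, hne'.symm, h, hle y hy, fun A hA => (heq A hA).symm⟩
    · exact ⟨_, _, hne', h, hle x hx, heq⟩
  have hX : (X ^ M - X ^ m : (AlgebraicClosure (ZMod p))[X]) ≠ 0 := by
    intro h
    have := congrArg (fun g : (AlgebraicClosure (ZMod p))[X] => g.coeff M) h
    simp [coeff_X_pow, hMm] at this
  have hcard : S.card ≤ M := by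
    rw [← card_image_of_injOn hinj]
    refine (card_le_degree_of_subset_roots (p := X ^ M - X ^ m) fun z hz => ?_).trans ?_
    · rw [Finset.mem_val, mem_image] at hz
      obtain ⟨A, hA, rfl⟩ := hz
      rw [mem_roots hX]
      simp [hpow A hA]
    · refine (natDegree_sub_le _ _).trans ?_
      simp [hmM]
  have hSc : S.card = 2 ^ (v + 1) - 1 := by
    rw [hS, card_erase_of_mem (mem_powerset.2 subset_rfl), card_powerset, card_range]
  have hns : (p * k) ^ s ≤ 2 ^ v := by
    refine (Nat.pow_le_pow_left (hL ▸ Nat.le_pow_clog one_lt_two _) s).trans ?_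
    rw [← pow_mul]
    refine Nat.pow_le_pow_right two_pos ?_
    rw [hv, Nat.le_sqrt', mul_pow, mul_comm (L ^ 2), hs]
    exact Nat.mul_le_mul_right _ (Nat.sqrt_le' t)
  have h2v : 2 ≤ 2 ^ v := Nat.le_self_pow (n := v) (by
    have : 1 ≤ v := by
      rw [hv, Nat.le_sqrt']
      nlinarith
    omega) 2
  rw [pow_succ] at hSc
  omega

end introspective

end FA.AKS
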